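import Mathlib
import Fermat.Prelude.Def_ModularCurve_X0
import Fermat.Prelude.Def_ModularCurve_LaurentCoeff
import Fermat.Prelude.Thm_ModularCurve_coeffMap_qExpand

set_option autoImplicit false

/-!
# Formal `q`-series: `E₄`, `Δ`, `j` as Laurent series over any commutative ring, and the
`q ↦ q^d` substitution on power series.
-/

namespace Fermat.Agent.S24.D9744

open ModularCurve HahnSeries

noncomputable section

section Generic

variable {R S : Type*} [CommRing R] [CommRing S]

/-- `coeffMap` commutes with `ofPowerSeries`. -/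
theorem coeffMap_ofPowerSeries (f : R →+* S) (p : PowerSeries R) :
    coeffMap f (HahnSeries.ofPowerSeries ℤ R p) = HahnSeries.ofPowerSeries ℤ S (p.map f) := by
  ext k
  rw [coeffMap_coeff]
  rcases lt_or_ge k 0 with hk | hk
  · rw [ofPowerSeries_coeff_of_neg _ hk, ofPowerSeries_coeff_of_neg _ hk, map_zero]
  · obtain ⟨n, rfl⟩ := Int.eq_ofNat_of_zero_le hk
    rw [HahnSeries.ofPowerSeries_apply_coeff, HahnSeries.ofPowerSeries_apply_coeff,
      PowerSeries.coeff_map]

/-- The substitution `q ↦ q^d` on formal power series. -/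
def expandPS (d : ℕ) (p : PowerSeries R) : PowerSeries R :=
  PowerSeries.mk fun n => if d ∣ n then PowerSeries.coeff (n / d) p else 0

theorem coeff_expandPS (d : ℕ) (p : PowerSeries R) (n : ℕ) :
    PowerSeries.coeff n (expandPS d p) = if d ∣ n then PowerSeries.coeff (n / d) p else 0 := by
  rw [expandPS, PowerSeries.coeff_mk]

theorem ofPowerSeries_expandPS (d : ℕ) [NeZero d] (p : PowerSeries R) :
    HahnSeries.ofPowerSeries ℤ R (expandPS d p)
      = qExpand R d (HahnSeries.ofPowerSeries ℤ R p) := by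
  have hd : 0 < d := Nat.pos_of_ne_zero (NeZero.ne d)
  ext k
  by_cases hdk : (d : ℤ) ∣ k
  · obtain ⟨m, rfl⟩ := hdk
    rw [qExpand_coeff_mul]
    rcases lt_or_ge m 0 with hm | hm
    · have : (d : ℤ) * m < 0 := mul_neg_of_pos_of_neg (by exact_mod_cast hd) hm
      rw [ofPowerSeries_coeff_of_neg _ this, ofPowerSeries_coeff_of_neg _ hm]
    · obtain ⟨n, rfl⟩ := Int.eq_ofNat_of_zero_le hm
      rw [show (d : ℤ) * (n : ℤ) = ((d * n : ℕ) : ℤ) by push_cast; ring,
        HahnSeries.ofPowerSeries_apply_coeff, HahnSeries.ofPowerSeries_apply_coeff,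
        coeff_expandPS, if_pos (dvd_mul_right d n), Nat.mul_div_cancel_left n hd]
  · rw [qExpand_coeff_of_not_dvd d _ hdk]
    rcases lt_or_ge k 0 with hk | hk
    · rw [ofPowerSeries_coeff_of_neg _ hk]
    · obtain ⟨n, rfl⟩ := Int.eq_ofNat_of_zero_le hk
      rw [HahnSeries.ofPowerSeries_apply_coeff, coeff_expandPS, if_neg]
      intro h
      exact hdk (Int.natCast_dvd_natCast.mpr h)

variable (R) in
/-- The formal `E₄` as a Laurent series over `R`. -/
def E4L : LaurentSeries R :=
  HahnSeries.ofPowerSeries ℤ R (eisenstein4.map (Int.castRingHom R))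

variable (R) in
/-- The formal `Δ = q ∏ (1 - qⁿ)²⁴` as a Laurent series over `R`. -/
def DeltaL : LaurentSeries R :=
  HahnSeries.single (1 : ℤ) (1 : R) *
    HahnSeries.ofPowerSeries ℤ R (dedekindEtaUnit.map (Int.castRingHom R))

variable (R) in
/-- The formal `j` as a Laurent series over `R`. -/
def jL : LaurentSeries R :=
  HahnSeries.single (-1 : ℤ) (1 : R) *
    HahnSeries.ofPowerSeries ℤ R (jNum.map (Int.castRingHom R))

theorem jL_mul_DeltaL : jL R * DeltaL R = E4L R ^ 3 := by
  have h1 : (HahnSeries.single (-1 : ℤ) (1 : R)) * HahnSeries.single (1 : ℤ) (1 : R) = 1 := by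
    rw [HahnSeries.single_mul_single]
    simp
  have h2 : jNum * dedekindEtaUnit = eisenstein4 ^ 3 := by
    rw [jNum, mul_assoc, mul_comm dedekindEtaUnitInv, dedekindEtaUnit_mul_inv, mul_one]
  calc jL R * DeltaL R
      = (HahnSeries.single (-1 : ℤ) (1 : R) * HahnSeries.single (1 : ℤ) (1 : R)) *
          (HahnSeries.ofPowerSeries ℤ R (jNum.map (Int.castRingHom R)) *
            HahnSeries.ofPowerSeries ℤ R (dedekindEtaUnit.map (Int.castRingHom R))) := by
        rw [jL, DeltaL]; ring
    _ = E4L R ^ 3 := by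
        rw [h1, one_mul, ← map_mul, ← map_mul, h2, map_pow, map_pow, E4L]

theorem coeffMap_E4L (f : R →+* S) : coeffMap f (E4L R) = E4L S := by
  rw [E4L, coeffMap_ofPowerSeries, E4L]
  congr 1
  ext n
  simp

theorem coeffMap_DeltaL (f : R →+* S) : coeffMap f (DeltaL R) = DeltaL S := by
  rw [DeltaL, map_mul, coeffMap_single, map_one, coeffMap_ofPowerSeries, DeltaL]
  congr 2
  ext n
  simp

theorem coeffMap_jL (f : R →+* S) : coeffMap f (jL R) = jL S := by
  rw [jL, map_mul, coeffMap_single, map_one, coeffMap_ofPowerSeries, jL]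
  congr 2
  ext n
  simp

theorem DeltaL_coeff_one : (DeltaL R).coeff 1 = 1 := by
  rw [DeltaL, HahnSeries.coeff_single_mul, one_mul, sub_self,
    show (0 : ℤ) = ((0 : ℕ) : ℤ) from rfl, HahnSeries.ofPowerSeries_apply_coeff,
    PowerSeries.coeff_map, PowerSeries.coeff_zero_eq_constantCoeff, constantCoeff_dedekindEtaUnit]
  simp

theorem DeltaL_ne_zero [Nontrivial R] : DeltaL R ≠ 0 := by
  intro h
  have := DeltaL_coeff_one (R := R)
  rw [h, HahnSeries.coeff_zero] at this
  exact zero_ne_one this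

end Generic

theorem jq_eq_jL : jq = jL ℚ := rfl

theorem coeffEmb_jq (L : Type*) [Field L] [Algebra ℚ L] : coeffEmb L jq = jL L := by
  rw [jq_eq_jL, coeffEmb, coeffMap_jL]

theorem coeffEmb_qExpand_jq (L : Type*) [Field L] [Algebra ℚ L] (d : ℕ) [NeZero d] :
    coeffEmb L (qExpand ℚ d jq) = qExpand L d (jL L) := by
  rw [coeffEmb, coeffMap_qExpand, ← coeffEmb, coeffEmb_jq]

end

end Fermat.Agent.S24.D9744
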