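import Mathlib
import Fermat.Prelude.Def_ModularCurve_X0
import Fermat.Prelude.Thm_CongruenceSubgroup_one_mem_strictPeriods_Gamma0

set_option autoImplicit false

/-!
# Level raising `f(τ) ↦ f(dτ)` from level one to `Γ₀(N)` (for `d ∣ N`), with `q`-expansions
-/

namespace Fermat.Agent.S24.D9744

open UpperHalfPlane ModularForm CongruenceSubgroup Matrix
open scoped MatrixGroups ModularForm

noncomputable section

/-- The matrix `diag(d, 1)` as an element of `GL(2, ℝ)`. -/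
def diagGL (d : ℕ) [NeZero d] : GL (Fin 2) ℝ :=
  Matrix.GeneralLinearGroup.mkOfDetNeZero !![(d : ℝ), 0; 0, 1]
    (by simp [Matrix.det_fin_two, NeZero.ne d])

theorem diagGL_det_pos (d : ℕ) [NeZero d] : 0 < (diagGL d).det.val := by
  have : (0 : ℝ) < d := by exact_mod_cast Nat.pos_of_ne_zero (NeZero.ne d)
  simpa [diagGL, Matrix.GeneralLinearGroup.mkOfDetNeZero, Matrix.det_fin_two] using this

theorem coe_diagGL_smul (d : ℕ) [NeZero d] (τ : ℍ) :
    ((diagGL d • τ : ℍ) : ℂ) = (d : ℂ) * τ := by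
  rw [coe_smul_of_det_pos (diagGL_det_pos d)]
  simp [num, denom, diagGL, Matrix.GeneralLinearGroup.mkOfDetNeZero]

theorem mapGL_apply_apply (g : SL(2, ℤ)) (i j : Fin 2) :
    (Matrix.SpecialLinearGroup.mapGL ℝ g) i j = (g i j : ℝ) := rfl

open scoped Pointwise in
theorem gamma0_le_conj (N d : ℕ) [NeZero d] (hd : d ∣ N) :
    ((Gamma0 N : Subgroup SL(2, ℤ)) : Subgroup (GL (Fin 2) ℝ))
      ≤ ConjAct.toConjAct (diagGL d)⁻¹ • 𝒮ℒ := by
  rintro x ⟨γ, hγ, rfl⟩
  rw [Subgroup.mem_pointwise_smul_iff_inv_smul_mem]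
  have hN : (N : ℤ) ∣ γ 1 0 := (ZMod.intCast_zmod_eq_zero_iff_dvd _ _).mp (Gamma0_mem.mp hγ)
  obtain ⟨c', hc'⟩ : (d : ℤ) ∣ γ 1 0 := (Int.natCast_dvd_natCast.mpr hd).trans hN
  have hdet : γ 0 0 * γ 1 1 - γ 0 1 * γ 1 0 = 1 := by
    have := γ.det_coe
    rwa [Matrix.det_fin_two] at this
  obtain ⟨γ', h00, h01, h10, h11⟩ : ∃ γ' : SL(2, ℤ), γ' 0 0 = γ 0 0 ∧ γ' 0 1 = d * γ 0 1 ∧
      γ' 1 0 = c' ∧ γ' 1 1 = γ 1 1 := by
    refine ⟨⟨!![γ 0 0, d * γ 0 1; c', γ 1 1], ?_⟩, rfl, rfl, rfl, rfl⟩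
    rw [Matrix.det_fin_two]
    simp only [Matrix.of_apply, Matrix.cons_val', Matrix.cons_val_zero, Matrix.cons_val_one,
      Matrix.cons_val_fin_one]
    rw [hc'] at hdet
    linarith
  refine ⟨γ', ?_⟩
  rw [ConjAct.smul_def]
  simp only [← map_inv, inv_inv, ConjAct.ofConjAct_toConjAct]
  rw [eq_mul_inv_iff_mul_eq]
  ext i j
  fin_cases i <;> fin_cases j <;>
    simp [diagGL, Matrix.GeneralLinearGroup.mkOfDetNeZero, Matrix.mul_apply, Fin.sum_univ_two,
      mapGL_apply_apply, h00, h01, h10, h11, hc'] <;> ring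

/-- Restriction of the level of a modular form to a smaller group. -/
def restrictLevel {Γ Γ' : Subgroup (GL (Fin 2) ℝ)} {k : ℤ} (h : Γ' ≤ Γ) (f : ModularForm Γ k) :
    ModularForm Γ' k where
  toFun := f
  slash_action_eq' γ hγ := f.slash_action_eq' γ (h hγ)
  holo' := f.holo'
  bdd_at_cusps' hc := f.bdd_at_cusps' (hc.mono h)

@[simp]
theorem restrictLevel_apply {Γ Γ' : Subgroup (GL (Fin 2) ℝ)} {k : ℤ} (h : Γ' ≤ Γ)
    (f : ModularForm Γ k) (τ : ℍ) : restrictLevel h f τ = f τ := rfl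

/-- `τ ↦ f(dτ)` as a modular form on `Γ₀(N)`, for `d ∣ N` and `f` of level one. -/
def levelLift (N d : ℕ) [NeZero d] (hd : d ∣ N) {k : ℤ} (f : ModularForm 𝒮ℒ k) :
    ModularForm ((Gamma0 N : Subgroup SL(2, ℤ)) : Subgroup (GL (Fin 2) ℝ)) k :=
  ((d : ℂ) ^ (1 - k)) • restrictLevel (gamma0_le_conj N d hd) (ModularForm.translate f (diagGL d))

theorem levelLift_apply (N d : ℕ) [NeZero d] (hd : d ∣ N) {k : ℤ} (f : ModularForm 𝒮ℒ k)
    (τ : ℍ) : levelLift N d hd f τ = f (diagGL d • τ) := by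
  have hd0 : (d : ℂ) ≠ 0 := by exact_mod_cast NeZero.ne d
  have hdet : (diagGL d).det.val = (d : ℝ) := by
    simp [diagGL, Matrix.GeneralLinearGroup.mkOfDetNeZero, Matrix.det_fin_two]
  have hdpos : (0 : ℝ) < d := by exact_mod_cast Nat.pos_of_ne_zero (NeZero.ne d)
  show (d : ℂ) ^ (1 - k) • (restrictLevel (gamma0_le_conj N d hd)
    (ModularForm.translate f (diagGL d))) τ = _
  rw [restrictLevel_apply, ModularForm.coe_translate, ModularForm.slash_apply]
  have hσ : σ (diagGL d) = ContinuousAlgEquiv.refl ℝ ℂ := by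
    have h := diagGL_det_pos d
    simp only [σ]
    rw [if_pos h]
  have hden : denom (diagGL d) τ = 1 := by
    simp [denom, diagGL, Matrix.GeneralLinearGroup.mkOfDetNeZero]
  rw [hσ, hden, hdet, abs_of_pos hdpos]
  simp only [ContinuousAlgEquiv.refl_apply, _root_.one_zpow, mul_one, smul_eq_mul,
    Complex.ofReal_natCast]
  rw [mul_comm, mul_assoc, ← zpow_add₀ hd0]
  simp

theorem qParam_diagGL_smul (d : ℕ) [NeZero d] (τ : ℍ) :
    Function.Periodic.qParam 1 ((diagGL d • τ : ℍ) : ℂ)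
      = Function.Periodic.qParam 1 (τ : ℂ) ^ d := by
  rw [coe_diagGL_smul]
  simp only [Function.Periodic.qParam]
  rw [← Complex.exp_nat_mul]
  congr 1
  push_cast
  ring

theorem qExpansion_levelLift_coeff (N d : ℕ) [NeZero d] (hd : d ∣ N) {k : ℤ}
    (f : ModularForm 𝒮ℒ k) (n : ℕ) :
    (qExpansion 1 (levelLift N d hd f)).coeff n
      = if d ∣ n then (qExpansion 1 f).coeff (n / d) else 0 := by
  symm
  refine ModularFormClass.qExpansion_coeff_unique (f := levelLift N d hd f)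
    (c := fun n => if d ∣ n then (qExpansion 1 f).coeff (n / d) else 0) one_pos
    (CongruenceSubgroup.one_mem_strictPeriods_Gamma0 N) (fun τ => ?_) n
  rw [levelLift_apply]
  have h := ModularForm.hasSum_qExpansion (f := f) one_pos one_mem_strictPeriods_SL
    (diagGL d • τ)
  rw [qParam_diagGL_smul] at h
  have hinj : Function.Injective (fun m : ℕ => d * m) := mul_right_injective₀ (NeZero.ne d)
  refine (Function.Injective.hasSum_iff hinj ?_).mp ?_
  · intro x hx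
    have : ¬ d ∣ x := fun ⟨m, hm⟩ => hx ⟨m, hm.symm⟩
    simp [this]
  · convert h using 1
    ext m
    simp [Function.comp, pow_mul, Nat.mul_div_cancel_left _ (Nat.pos_of_ne_zero (NeZero.ne d))]

end

end Fermat.Agent.S24.D9744
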