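import Mathlib

set_option autoImplicit false

/-!
# Evaluation of absolutely convergent formal power series (S24 helper library)

`PSConv A q` : the formal power series `A : ℂ⟦X⟧` converges absolutely at `q`.
`psEval A q` : its value.  Main facts: multiplicativity (Cauchy product).
-/

namespace Fermat.Agent.S24.D9744

open PowerSeries Filter Topology Finset

/-- Absolute convergence of the formal power series `A` at the point `q`. -/
def PSConv (A : PowerSeries ℂ) (q : ℂ) : Prop :=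
  Summable fun m : ℕ => ‖coeff m A‖ * ‖q‖ ^ m

/-- The `ℓ¹`-type norm of `A` at radius `‖q‖`. -/
noncomputable def psNorm (A : PowerSeries ℂ) (q : ℂ) : ℝ :=
  ∑' m : ℕ, ‖coeff m A‖ * ‖q‖ ^ m

/-- The value of the formal power series `A` at `q`. -/
noncomputable def psEval (A : PowerSeries ℂ) (q : ℂ) : ℂ :=
  ∑' m : ℕ, coeff m A * q ^ m

theorem PSConv.summable_norm {A : PowerSeries ℂ} {q : ℂ} (h : PSConv A q) :
    Summable fun m : ℕ => ‖coeff m A * q ^ m‖ := by
  simpa [PSConv, norm_mul, norm_pow] using h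

theorem PSConv.summable {A : PowerSeries ℂ} {q : ℂ} (h : PSConv A q) :
    Summable fun m : ℕ => coeff m A * q ^ m :=
  h.summable_norm.of_norm

theorem PSConv.hasSum {A : PowerSeries ℂ} {q : ℂ} (h : PSConv A q) :
    HasSum (fun m : ℕ => coeff m A * q ^ m) (psEval A q) :=
  h.summable.hasSum

theorem PSConv.term_le {A : PowerSeries ℂ} {q : ℂ} (h : PSConv A q) (m : ℕ) :
    ‖coeff m A‖ * ‖q‖ ^ m ≤ psNorm A q :=
  Summable.le_tsum h m fun j _ => by positivity

theorem psNorm_nonneg (A : PowerSeries ℂ) (q : ℂ) : 0 ≤ psNorm A q :=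
  tsum_nonneg fun m => by positivity

theorem PSConv.mul {A B : PowerSeries ℂ} {q : ℂ} (hA : PSConv A q) (hB : PSConv B q) :
    PSConv (A * B) q ∧ psNorm (A * B) q ≤ psNorm A q * psNorm B q ∧
      psEval (A * B) q = psEval A q * psEval B q := by
  set f : ℕ → ℝ := fun m => ‖coeff m A‖ * ‖q‖ ^ m with hf
  set g : ℕ → ℝ := fun m => ‖coeff m B‖ * ‖q‖ ^ m with hg
  have hfs : Summable f := hA
  have hgs : Summable g := hB
  have hfn : Summable fun m => ‖f m‖ :=
    (summable_congr fun m => by rw [Real.norm_of_nonneg (by positivity)]).mpr hfs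
  have hgn : Summable fun m => ‖g m‖ :=
    (summable_congr fun m => by rw [Real.norm_of_nonneg (by positivity)]).mpr hgs
  have hsum : Summable fun n => ∑ kl ∈ antidiagonal n, f kl.1 * g kl.2 :=
    summable_sum_mul_antidiagonal_of_summable_norm' hfn hfs hgn hgs
  have hcauchy : (∑' n, f n) * ∑' n, g n = ∑' n, ∑ kl ∈ antidiagonal n, f kl.1 * g kl.2 :=
    tsum_mul_tsum_eq_tsum_sum_antidiagonal_of_summable_norm hfn hgn
  have hterm : ∀ n : ℕ, ‖coeff n (A * B)‖ * ‖q‖ ^ n ≤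
      ∑ kl ∈ antidiagonal n, f kl.1 * g kl.2 := by
    intro n
    rw [coeff_mul]
    calc ‖∑ p ∈ antidiagonal n, coeff p.1 A * coeff p.2 B‖ * ‖q‖ ^ n
        ≤ (∑ p ∈ antidiagonal n, ‖coeff p.1 A * coeff p.2 B‖) * ‖q‖ ^ n := by
          gcongr
          exact norm_sum_le _ _
      _ = ∑ p ∈ antidiagonal n, ‖coeff p.1 A * coeff p.2 B‖ * ‖q‖ ^ n := Finset.sum_mul _ _ _
      _ = ∑ kl ∈ antidiagonal n, f kl.1 * g kl.2 := by
          refine Finset.sum_congr rfl fun p hp => ?_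
          rw [Finset.HasAntidiagonal.mem_antidiagonal] at hp
          simp only [hf, hg, norm_mul]
          rw [← hp, pow_add]
          ring
  have hconv : PSConv (A * B) q :=
    Summable.of_nonneg_of_le (fun n => by positivity) hterm hsum
  refine ⟨hconv, ?_, ?_⟩
  · calc psNorm (A * B) q ≤ ∑' n, ∑ kl ∈ antidiagonal n, f kl.1 * g kl.2 :=
          Summable.tsum_le_tsum hterm hconv hsum
      _ = psNorm A q * psNorm B q := hcauchy.symm
  · have h := tsum_mul_tsum_eq_tsum_sum_antidiagonal_of_summable_norm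
      hA.summable_norm hB.summable_norm
    rw [psEval, psEval, psEval, h]
    refine tsum_congr fun n => ?_
    rw [coeff_mul, Finset.sum_mul]
    refine Finset.sum_congr rfl fun p hp => ?_
    rw [Finset.HasAntidiagonal.mem_antidiagonal] at hp
    rw [← hp, pow_add]
    ring

theorem psConv_one (q : ℂ) : PSConv 1 q ∧ psNorm 1 q = 1 ∧ psEval 1 q = 1 := by
  have h1 : ∀ m : ℕ, m ∉ ({0} : Finset ℕ) → ‖coeff m (1 : PowerSeries ℂ)‖ * ‖q‖ ^ m = 0 := by
    intro m hm
    have : m ≠ 0 := by simpa using hm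
    simp [coeff_one, this]
  have h2 : ∀ m : ℕ, m ∉ ({0} : Finset ℕ) → coeff m (1 : PowerSeries ℂ) * q ^ m = 0 := by
    intro m hm
    have : m ≠ 0 := by simpa using hm
    simp [coeff_one, this]
  refine ⟨summable_of_ne_finset_zero h1, ?_, ?_⟩
  · rw [psNorm, tsum_eq_sum h1]; simp
  · rw [psEval, tsum_eq_sum h2]; simp

theorem PSConv.pow {A : PowerSeries ℂ} {q : ℂ} (hA : PSConv A q) (n : ℕ) :
    PSConv (A ^ n) q ∧ psEval (A ^ n) q = psEval A q ^ n := by
  induction n with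
  | zero => simpa using ⟨(psConv_one q).1, (psConv_one q).2.2⟩
  | succ n ih =>
    obtain ⟨h1, -, h3⟩ := ih.1.mul hA
    rw [pow_succ, pow_succ]
    exact ⟨h1, by rw [h3, ih.2]⟩

theorem psConv_X (q : ℂ) : PSConv X q ∧ psEval X q = q := by
  have h1 : ∀ m : ℕ, m ∉ ({1} : Finset ℕ) → ‖coeff m (X : PowerSeries ℂ)‖ * ‖q‖ ^ m = 0 := by
    intro m hm
    have : m ≠ 1 := by simpa using hm
    simp [coeff_X, this]
  have h2 : ∀ m : ℕ, m ∉ ({1} : Finset ℕ) → coeff m (X : PowerSeries ℂ) * q ^ m = 0 := by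
    intro m hm
    have : m ≠ 1 := by simpa using hm
    simp [coeff_X, this]
  refine ⟨summable_of_ne_finset_zero h1, ?_⟩
  rw [psEval, tsum_eq_sum h2]; simp

theorem psConv_one_sub_X_pow (k : ℕ) (q : ℂ) :
    PSConv (1 - X ^ (k + 1)) q ∧ psNorm (1 - X ^ (k + 1)) q ≤ 1 + ‖q‖ ^ (k + 1) ∧
      psEval (1 - X ^ (k + 1)) q = 1 - q ^ (k + 1) := by
  have hc : ∀ m : ℕ, coeff m (1 - X ^ (k + 1) : PowerSeries ℂ)
      = (if m = 0 then 1 else 0) - (if m = k + 1 then 1 else 0) := by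
    intro m
    rw [map_sub, coeff_one, coeff_X_pow]
  have h1 : ∀ m : ℕ, m ∉ ({0, k + 1} : Finset ℕ) →
      ‖coeff m (1 - X ^ (k + 1) : PowerSeries ℂ)‖ * ‖q‖ ^ m = 0 := by
    intro m hm
    have hm0 : m ≠ 0 := fun h => hm (by simp [h])
    have hm1 : m ≠ k + 1 := fun h => hm (by simp [h])
    simp [hc, hm0, hm1]
  have h2 : ∀ m : ℕ, m ∉ ({0, k + 1} : Finset ℕ) →
      coeff m (1 - X ^ (k + 1) : PowerSeries ℂ) * q ^ m = 0 := by
    intro m hm
    have hm0 : m ≠ 0 := fun h => hm (by simp [h])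
    have hm1 : m ≠ k + 1 := fun h => hm (by simp [h])
    simp [hc, hm0, hm1]
  have hne : (0 : ℕ) ≠ k + 1 := by omega
  refine ⟨summable_of_ne_finset_zero h1, ?_, ?_⟩
  · rw [psNorm, tsum_eq_sum h1, Finset.sum_pair hne]
    simp [hc]
  · rw [psEval, tsum_eq_sum h2, Finset.sum_pair hne]
    simp [sub_eq_add_neg]

theorem psConv_prod_one_sub_X_pow (s : Finset ℕ) (q : ℂ) :
    PSConv (∏ i ∈ s, (1 - X ^ (i + 1) : PowerSeries ℂ)) q ∧
      psNorm (∏ i ∈ s, (1 - X ^ (i + 1) : PowerSeries ℂ)) q ≤ ∏ i ∈ s, (1 + ‖q‖ ^ (i + 1)) ∧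
      psEval (∏ i ∈ s, (1 - X ^ (i + 1) : PowerSeries ℂ)) q = ∏ i ∈ s, (1 - q ^ (i + 1)) := by
  induction s using Finset.induction_on with
  | empty =>
    simp only [Finset.prod_empty]
    exact ⟨(psConv_one q).1, (psConv_one q).2.1.le, (psConv_one q).2.2⟩
  | insert i s hi ih =>
    rw [Finset.prod_insert hi, Finset.prod_insert hi, Finset.prod_insert hi]
    obtain ⟨a1, a2, a3⟩ := psConv_one_sub_X_pow i q
    obtain ⟨b1, b2, b3⟩ := ih
    obtain ⟨c1, c2, c3⟩ := a1.mul b1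
    refine ⟨c1, c2.trans ?_, by rw [c3, a3, b3]⟩
    exact mul_le_mul a2 b2 (psNorm_nonneg _ _) (by positivity)

theorem prod_one_add_pow_le_exp (s : Finset ℕ) {r : ℝ} (hr0 : 0 ≤ r) (hr1 : r < 1) :
    ∏ i ∈ s, (1 + r ^ (i + 1)) ≤ Real.exp (r / (1 - r)) := by
  calc ∏ i ∈ s, (1 + r ^ (i + 1)) ≤ ∏ i ∈ s, Real.exp (r ^ (i + 1)) := by
        refine Finset.prod_le_prod (fun i _ => by positivity) fun i _ => ?_
        rw [add_comm]
        exact Real.add_one_le_exp _
    _ = Real.exp (∑ i ∈ s, r ^ (i + 1)) := (Real.exp_sum _ _).symm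
    _ ≤ Real.exp (r / (1 - r)) := by
        refine Real.exp_le_exp.mpr ?_
        have hsum : HasSum (fun i : ℕ => r ^ (i + 1)) (r / (1 - r)) := by
          have := (hasSum_geometric_of_lt_one hr0 hr1).mul_left r
          simpa [pow_succ, mul_comm, div_eq_mul_inv] using this
        exact sum_le_hasSum s (fun i _ => by positivity) hsum

end Fermat.Agent.S24.D9744
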