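import Mathlib
import Fermat.Prelude.Def_ModularCurve_X0
import Fermat.Agent.S24.D9744.PSEval

set_option autoImplicit false

/-!
# Bridge between the formal `q`-series of the prelude and Mathlib's analytic modular forms

* `qExpansion_E4` : `qExpansion 1 E₄ = map eisenstein4`
* `qExpansion_discriminant` : `qExpansion 1 Δ = X * map dedekindEtaUnit`
-/

namespace Fermat.Agent.S24.D9744

open PowerSeries Filter Topology Finset UpperHalfPlane ModularForm EisensteinSeries

theorem qExpansion_E4 :
    qExpansion 1 (E₄ : ℍ → ℂ) = PowerSeries.map (Int.castRingHom ℂ) ModularCurve.eisenstein4 := by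
  ext m
  rw [E_qExpansion_coeff (by norm_num) ⟨2, rfl⟩ m, PowerSeries.coeff_map, ModularCurve.eisenstein4,
    PowerSeries.coeff_mk]
  split_ifs with h
  · simp
  · have hb : bernoulli 4 = -1 / 30 := by decide +kernel
    rw [hb]
    simp only [ArithmeticFunction.sigma_apply, eq_intCast]
    push_cast
    ring

/-- The formal Euler product evaluates to the analytic Euler product on the open unit disc. -/
theorem hasSum_pentagonalSeries_eval {q : ℂ} (hq : ‖q‖ < 1) :
    PSConv (pentagonalSeries ℂ) q ∧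
      psEval (pentagonalSeries ℂ) q = ∏' n : ℕ, (1 - q ^ (n + 1)) := by
  obtain ⟨r, hqr, hr1⟩ : ∃ r : ℝ, ‖q‖ < r ∧ r < 1 := exists_between hq
  have hr0 : 0 < r := lt_of_le_of_lt (norm_nonneg q) hqr
  set C : ℝ := Real.exp (r / (1 - r)) with hC
  set bound : ℕ → ℝ := fun m => C * (‖q‖ / r) ^ m with hbound
  have hratio0 : 0 ≤ ‖q‖ / r := by positivity
  have hratio1 : ‖q‖ / r < 1 := (div_lt_one hr0).mpr hqr
  have hbs : Summable bound := (summable_geometric_of_lt_one hratio0 hratio1).mul_left C
  set P : Finset ℕ → PowerSeries ℂ := fun s => ∏ i ∈ s, (1 - X ^ (i + 1) : PowerSeries ℂ) with hP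
  set f : Finset ℕ → ℕ → ℂ := fun s m => coeff m (P s) * q ^ m with hf
  set g : ℕ → ℂ := fun m => coeff m (pentagonalSeries ℂ) * q ^ m with hg
  have hnr : ‖(r : ℂ)‖ = r := by rw [Complex.norm_real, Real.norm_of_nonneg hr0.le]
  have hfb : ∀ s m, ‖f s m‖ ≤ bound m := by
    intro s m
    obtain ⟨c1, c2, -⟩ := psConv_prod_one_sub_X_pow s (r : ℂ)
    have h1 := c1.term_le m
    rw [hnr] at h1 c2
    have h2 : ‖coeff m (P s)‖ * r ^ m ≤ C :=
      (h1.trans c2).trans (prod_one_add_pow_le_exp s hr0.le hr1)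
    have h3 : ‖f s m‖ = ‖coeff m (P s)‖ * r ^ m * (‖q‖ / r) ^ m := by
      simp only [hf, norm_mul, norm_pow]
      rw [div_pow]
      field_simp
    rw [h3]
    exact mul_le_mul_of_nonneg_right h2 (by positivity)
  have hfg : ∀ m, Tendsto (fun s => f s m) atTop (𝓝 (g m)) := by
    intro m
    refine tendsto_nhds_of_eventually_eq ?_
    filter_upwards [coeff_prod_one_sub_X_pow_eventually_eq ℂ m] with s hs
    simp only [hf, hg, hP, hs]
  have hT : Tendsto (fun s => ∑' m, f s m) atTop (𝓝 (∑' m, g m)) :=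
    tendsto_tsum_of_dominated_convergence hbs hfg (Eventually.of_forall hfb)
  have hfs : ∀ s, ∑' m, f s m = ∏ i ∈ s, (1 - q ^ (i + 1)) := fun s =>
    (psConv_prod_one_sub_X_pow s q).2.2
  have hprod : Tendsto (fun s : Finset ℕ => ∏ i ∈ s, (1 - q ^ (i + 1))) atTop
      (𝓝 (∏' n : ℕ, (1 - q ^ (n + 1)))) :=
    (ModularForm.multipliable_one_sub_pow hq).hasProd
  have heq : ∑' m, g m = ∏' n : ℕ, (1 - q ^ (n + 1)) :=
    tendsto_nhds_unique (hT.congr hfs) hprod
  have hgb : ∀ m, ‖g m‖ ≤ bound m := fun m =>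
    le_of_tendsto ((continuous_norm.tendsto _).comp (hfg m)) (Eventually.of_forall fun s => hfb s m)
  have hconv : PSConv (pentagonalSeries ℂ) q := by
    refine Summable.of_nonneg_of_le (fun m => by positivity) (fun m => ?_) hbs
    have := hgb m
    simpa [hg, norm_mul, norm_pow] using this
  exact ⟨hconv, heq⟩

theorem etaProd_eq_pentagonalSeries : ModularCurve.etaProd = pentagonalSeries ℤ :=
  PowerSeries.WithPiTopology.tprod_one_sub_X_pow ℤ

theorem map_pentagonalSeries :
    PowerSeries.map (Int.castRingHom ℂ) (pentagonalSeries ℤ) = pentagonalSeries ℂ := by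
  ext n
  rw [PowerSeries.coeff_map]
  by_cases h : n ∈ Set.range pentagonal
  · obtain ⟨k, rfl⟩ := h
    rw [coeff_pentagonalSeries_pentagonal, coeff_pentagonalSeries_pentagonal]
    simp
  · rw [coeff_pentagonalSeries_eq_zero ℤ h, coeff_pentagonalSeries_eq_zero ℂ h, map_zero]

theorem map_etaProd :
    PowerSeries.map (Int.castRingHom ℂ) ModularCurve.etaProd = pentagonalSeries ℂ := by
  rw [etaProd_eq_pentagonalSeries, map_pentagonalSeries]

/-- The `q`-expansion of the modular discriminant is the formal series `q ∏ (1 - qⁿ)²⁴`. -/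
theorem qExpansion_discriminant :
    qExpansion 1 (ModularForm.discriminant : ℍ → ℂ)
      = X * PowerSeries.map (Int.castRingHom ℂ) ModularCurve.dedekindEtaUnit := by
  have hmap : PowerSeries.map (Int.castRingHom ℂ) ModularCurve.dedekindEtaUnit
      = pentagonalSeries ℂ ^ 24 := by
    rw [ModularCurve.dedekindEtaUnit, map_pow, map_etaProd]
  rw [hmap]
  ext m
  symm
  refine ModularFormClass.qExpansion_coeff_unique (f := CuspForm.discriminant)
    (c := fun m => coeff m (X * pentagonalSeries ℂ ^ 24)) one_pos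
    one_mem_strictPeriods_SL (fun τ => ?_) m
  have hq : ‖Function.Periodic.qParam 1 (τ : ℂ)‖ < 1 :=
    Function.Periodic.norm_qParam_lt_one one_pos τ.im_pos
  set q : ℂ := Function.Periodic.qParam 1 (τ : ℂ) with hqdef
  obtain ⟨h1, h2⟩ := hasSum_pentagonalSeries_eval hq
  obtain ⟨h3, h4⟩ := h1.pow 24
  obtain ⟨h5, -, h6⟩ := (psConv_X q).1.mul h3
  have hval : CuspForm.discriminant τ = psEval (X * pentagonalSeries ℂ ^ 24) q := by
    rw [h6, (psConv_X q).2, h4, h2]
    show ModularForm.discriminant τ = _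
    rw [ModularForm.discriminant_eq_q_prod, ← (ModularForm.multipliable_one_sub_pow hq).tprod_pow]
  rw [hval]
  simpa [smul_eq_mul] using h5.hasSum

end Fermat.Agent.S24.D9744
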