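import Mathlib
import Fermat.Prelude.Def_ModularCurve_X0
import Fermat.Prelude.Def_ModularCurve_LaurentCoeff
import Fermat.Prelude.Def_ModularCurve_ArithmeticGalois
import Fermat.Prelude.Thm_ModularCurve_coeffMap_qExpand
import Fermat.Prelude.Thm_CongruenceSubgroup_one_mem_strictPeriods_Gamma0
import Fermat.Prelude.Thm_ModularForm_sturm_bound_Gamma0
import Fermat.Agent.S24.D9744.QExpBridge
import Fermat.Agent.S24.D9744.LevelForms
import Fermat.Agent.S24.D9744.FormalJ

set_option autoImplicit false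
set_option linter.unusedSectionVars false

/-!
# Algebraicity of the modular function field over `ℚ̄(j)` and the degree bound
`[ℚ̄(X₀(N)) : ℚ̄(j)] ≤ [SL₂(ℤ) : Γ₀(N)]`, via the Sturm bound for `Γ₀(N)`.
-/

namespace Fermat.Agent.S24.D9744

open ModularCurve HahnSeries UpperHalfPlane ModularForm CongruenceSubgroup
open scoped MatrixGroups

noncomputable section

/-- A fixed embedding of `ℚ̄` into `ℂ`. -/
def iotaC : AlgebraicClosure ℚ →+* ℂ :=
  haveI : Algebra.IsAlgebraic ℚ (AlgebraicClosure ℚ) := AlgebraicClosure.isAlgebraic ℚ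
  ((IsAlgClosed.lift : AlgebraicClosure ℚ →ₐ[ℚ] ℂ) : AlgebraicClosure ℚ →+* ℂ)

/-- The coefficientwise embedding of Laurent series over `ℚ̄` into Laurent series over `ℂ`. -/
def cIota : LaurentSeries (AlgebraicClosure ℚ) →+* LaurentSeries ℂ := coeffMap iotaC

theorem cIota_injective : Function.Injective cIota := by
  intro x y h
  ext k
  have := congrArg (fun z => z.coeff k) h
  simp only [cIota, coeffMap_coeff] at this
  exact iotaC.injective this

theorem cIota_qExpand (d : ℕ) [NeZero d] (x : LaurentSeries (AlgebraicClosure ℚ)) :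
    cIota (qExpand (AlgebraicClosure ℚ) d x) = qExpand ℂ d (cIota x) :=
  coeffMap_qExpand iotaC d x

/-- `Δ` as a modular form of level one. -/
def DeltaM : ModularForm 𝒮ℒ 12 := ModularFormClass.modularForm CuspForm.discriminant

theorem qExpansion_DeltaM :
    qExpansion 1 (DeltaM : ℍ → ℂ)
      = PowerSeries.X * PowerSeries.map (Int.castRingHom ℂ) ModularCurve.dedekindEtaUnit :=
  qExpansion_discriminant

variable (N : ℕ) [NeZero N]

/-- `Γ₀(N)` as a subgroup of `GL(2, ℝ)`. -/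
abbrev G0 : Subgroup (GL (Fin 2) ℝ) :=
  Subgroup.map (Matrix.SpecialLinearGroup.mapGL ℝ) (Gamma0 N)

omit [NeZero N] in
theorem one_mem_strictPeriods_G0 : (1 : ℝ) ∈ (G0 N).strictPeriods :=
  CongruenceSubgroup.one_mem_strictPeriods_Gamma0 N

/-- The index type: divisors of `N`. -/
abbrev Dv : Type := {d : ℕ // d ∈ N.divisors}

instance instNeZeroDv (x : Dv N) : NeZero x.1 := ⟨(Nat.pos_of_mem_divisors x.2).ne'⟩

theorem Dv.dvd {N : ℕ} (x : Dv N) : x.1 ∣ N := Nat.dvd_of_mem_divisors x.2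

/-- The divisor `1`. -/
def dvOne : Dv N := ⟨1, Nat.one_mem_divisors.mpr (NeZero.ne N)⟩

/-- `E₄(dτ)` on `Γ₀(N)`. -/
def E4f (x : Dv N) : ModularForm (G0 N) 4 := levelLift N x.1 x.dvd E₄

/-- `Δ(dτ)` on `Γ₀(N)`. -/
def Df (x : Dv N) : ModularForm (G0 N) 12 := levelLift N x.1 x.dvd DeltaM

/-- The formal generator `j(q^d)`. -/
def gK (x : Dv N) : LaurentSeries (AlgebraicClosure ℚ) :=
  qExpand (AlgebraicClosure ℚ) x.1 (jL (AlgebraicClosure ℚ))

/-- The formal `Δ(q^d)`. -/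
def gD (x : Dv N) : LaurentSeries (AlgebraicClosure ℚ) :=
  qExpand (AlgebraicClosure ℚ) x.1 (DeltaL (AlgebraicClosure ℚ))

/-- The formal `E₄(q^d)`. -/
def gE (x : Dv N) : LaurentSeries (AlgebraicClosure ℚ) :=
  qExpand (AlgebraicClosure ℚ) x.1 (E4L (AlgebraicClosure ℚ))

omit [NeZero N] in
theorem gK_mul_gD (x : Dv N) : gK N x * gD N x = gE N x ^ 3 := by
  rw [gK, gD, gE, ← map_mul, jL_mul_DeltaL, map_pow]

omit [NeZero N] in
theorem gD_ne_zero (x : Dv N) : gD N x ≠ 0 := by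
  rw [gD]
  exact (map_ne_zero_iff _ (qExpand_injective x.1)).mpr DeltaL_ne_zero

omit [NeZero N] in
theorem qExpansion_levelLift (d : ℕ) [NeZero d] (hd : d ∣ N) {k : ℤ} (f : ModularForm 𝒮ℒ k) :
    qExpansion 1 (levelLift N d hd f) = expandPS d (qExpansion 1 f) := by
  ext n
  rw [coeff_expandPS]
  exact qExpansion_levelLift_coeff N d hd f n

theorem ofPS_qExpansion_E4f (x : Dv N) :
    HahnSeries.ofPowerSeries ℤ ℂ (qExpansion 1 (E4f N x)) = cIota (gE N x) := by
  rw [E4f, qExpansion_levelLift, ofPowerSeries_expandPS, qExpansion_E4, gE, cIota_qExpand,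
    cIota, coeffMap_E4L, E4L]

theorem ofPS_qExpansion_Df (x : Dv N) :
    HahnSeries.ofPowerSeries ℤ ℂ (qExpansion 1 (Df N x)) = cIota (gD N x) := by
  rw [Df, qExpansion_levelLift, ofPowerSeries_expandPS, qExpansion_DeltaM, gD, cIota_qExpand,
    cIota, coeffMap_DeltaL, DeltaL, map_mul, HahnSeries.ofPowerSeries_X]

theorem cIota_smul (c : AlgebraicClosure ℚ) (y : LaurentSeries (AlgebraicClosure ℚ)) :
    cIota (c • y) = iotaC c • cIota y := by
  ext k
  simp [cIota, coeffMap_coeff]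

theorem ofPowerSeries_smul' (c : ℂ) (p : PowerSeries ℂ) :
    HahnSeries.ofPowerSeries ℤ ℂ (c • p) = c • HahnSeries.ofPowerSeries ℤ ℂ p := by
  ext k
  rcases lt_or_ge k 0 with hk | hk
  · rw [HahnSeries.coeff_smul, ofPowerSeries_coeff_of_neg _ hk, ofPowerSeries_coeff_of_neg _ hk,
      smul_zero]
  · obtain ⟨n, rfl⟩ := Int.eq_ofNat_of_zero_le hk
    rw [HahnSeries.coeff_smul, HahnSeries.ofPowerSeries_apply_coeff,
      HahnSeries.ofPowerSeries_apply_coeff]
    simp

/-- The number of divisors of `N`. -/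
def Mdiv : ℕ := Fintype.card (Dv N)

/-- The formal `∏_{d ∣ N} Δ(q^d)`. -/
def UK : LaurentSeries (AlgebraicClosure ℚ) := ∏ x : Dv N, gD N x

theorem UK_ne_zero : UK N ≠ 0 :=
  Finset.prod_ne_zero_iff.mpr (fun x _ => gD_ne_zero N x)

theorem exists_prod_Df (s : Finset (Dv N)) :
    ∃ (k : ℤ) (G : ModularForm (G0 N) k), k = 12 * (s.card : ℤ) ∧
      HahnSeries.ofPowerSeries ℤ ℂ (qExpansion 1 G) = cIota (∏ x ∈ s, gD N x) := by
  classical
  induction s using Finset.induction_on with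
  | empty =>
    refine ⟨0, 1, by simp, ?_⟩
    rw [ModularForm.qExpansion_one]
    simp
  | insert x s hx ih =>
    obtain ⟨k, G, hk, hG⟩ := ih
    refine ⟨12 + k, (Df N x).mul G, ?_, ?_⟩
    · rw [Finset.card_insert_of_notMem hx, hk]
      push_cast
      ring
    · rw [ModularForm.qExpansion_mul one_pos (one_mem_strictPeriods_G0 N), map_mul,
        ofPS_qExpansion_Df, hG, Finset.prod_insert hx, map_mul]

/-- `Hom2 a t x`: the formal series `x · Δ^a · (∏_d Δ(q^d))^t` is the `q`-expansion of a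
modular form on `Γ₀(N)` of weight `12 a + 12 M t`. -/
def Hom2 (a t : ℕ) (x : LaurentSeries (AlgebraicClosure ℚ)) : Prop :=
  ∃ (k : ℤ) (G : ModularForm (G0 N) k), k = 12 * (a : ℤ) + 12 * (Mdiv N : ℤ) * (t : ℤ) ∧
    HahnSeries.ofPowerSeries ℤ ℂ (qExpansion 1 G)
      = cIota (x * gD N (dvOne N) ^ a * UK N ^ t)

variable {N}

theorem hom2_zero (a t : ℕ) : Hom2 N a t 0 := by
  refine ⟨_, 0, rfl, ?_⟩
  rw [FunLike.coe_zero, qExpansion_zero]
  simp

theorem hom2_one : Hom2 N 0 0 1 := by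
  refine ⟨0, 1, by simp, ?_⟩
  rw [ModularForm.qExpansion_one]
  simp

theorem hom2_mul {a t a' t' : ℕ} {x y : LaurentSeries (AlgebraicClosure ℚ)}
    (hx : Hom2 N a t x) (hy : Hom2 N a' t' y) : Hom2 N (a + a') (t + t') (x * y) := by
  obtain ⟨k, G, hk, hG⟩ := hx
  obtain ⟨k', G', hk', hG'⟩ := hy
  refine ⟨k + k', G.mul G', ?_, ?_⟩
  · rw [hk, hk']
    push_cast
    ring
  · rw [ModularForm.qExpansion_mul one_pos (one_mem_strictPeriods_G0 N), map_mul, hG, hG',
      ← map_mul]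
    congr 1
    ring

theorem hom2_add {a t : ℕ} {x y : LaurentSeries (AlgebraicClosure ℚ)}
    (hx : Hom2 N a t x) (hy : Hom2 N a t y) : Hom2 N a t (x + y) := by
  obtain ⟨k, G, hk, hG⟩ := hx
  obtain ⟨k', G', hk', hG'⟩ := hy
  subst hk
  subst hk'
  refine ⟨_, G + G', rfl, ?_⟩
  rw [FunLike.coe_add, ModularForm.qExpansion_add one_pos (one_mem_strictPeriods_G0 N),
    map_add, hG, hG', ← map_add]
  congr 1
  ring

theorem hom2_smul {a t : ℕ} {x : LaurentSeries (AlgebraicClosure ℚ)} (c : AlgebraicClosure ℚ)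
    (hx : Hom2 N a t x) : Hom2 N a t (c • x) := by
  obtain ⟨k, G, hk, hG⟩ := hx
  refine ⟨k, iotaC c • G, hk, ?_⟩
  rw [FunLike.coe_smul, ModularForm.qExpansion_smul one_pos (one_mem_strictPeriods_G0 N),
    ofPowerSeries_smul', hG, ← cIota_smul, ← HahnSeries.C_mul_eq_smul, ← HahnSeries.C_mul_eq_smul,
    mul_assoc, mul_assoc, mul_assoc]

theorem hom2_up_a {a t : ℕ} {x : LaurentSeries (AlgebraicClosure ℚ)}
    (hx : Hom2 N a t x) : Hom2 N (a + 1) t x := by
  obtain ⟨k, G, hk, hG⟩ := hx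
  refine ⟨k + 12, G.mul (Df N (dvOne N)), ?_, ?_⟩
  · rw [hk]
    push_cast
    ring
  · rw [ModularForm.qExpansion_mul one_pos (one_mem_strictPeriods_G0 N), map_mul, hG,
      ofPS_qExpansion_Df, ← map_mul]
    congr 1
    ring

theorem hom2_up_t {a t : ℕ} {x : LaurentSeries (AlgebraicClosure ℚ)}
    (hx : Hom2 N a t x) : Hom2 N a (t + 1) x := by
  obtain ⟨k, G, hk, hG⟩ := hx
  obtain ⟨kU, GU, hkU, hGU⟩ := exists_prod_Df N Finset.univ
  refine ⟨k + kU, G.mul GU, ?_, ?_⟩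
  · rw [hk, hkU, Finset.card_univ, Mdiv]
    push_cast
    ring
  · rw [ModularForm.qExpansion_mul one_pos (one_mem_strictPeriods_G0 N), map_mul, hG, hGU,
      ← map_mul]
    congr 1
    rw [UK]
    ring

theorem hom2_mono {a t a' t' : ℕ} {x : LaurentSeries (AlgebraicClosure ℚ)}
    (ha : a ≤ a') (ht : t ≤ t') (hx : Hom2 N a t x) : Hom2 N a' t' x := by
  have h1 : Hom2 N a' t x := by
    induction a', ha using Nat.le_induction with
    | base => exact hx
    | succ n _ ih => exact hom2_up_a ih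
  induction t', ht using Nat.le_induction with
  | base => exact h1
  | succ n _ ih => exact hom2_up_t ih

theorem hom2_pow {a t : ℕ} {x : LaurentSeries (AlgebraicClosure ℚ)} (hx : Hom2 N a t x) (n : ℕ) :
    Hom2 N (n * a) (n * t) (x ^ n) := by
  induction n with
  | zero => simpa using hom2_one (N := N)
  | succ n ih =>
    have := hom2_mul ih hx
    rw [pow_succ]
    convert this using 1 <;> ring

theorem hom2_gen_j : Hom2 N 1 0 (gK N (dvOne N)) := by
  refine ⟨((3 : ℕ) : ℤ) * 4, (E4f N (dvOne N)).pow 3, by push_cast; ring, ?_⟩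
  rw [ModularForm.qExpansion_pow one_pos (one_mem_strictPeriods_G0 N), map_pow,
    ofPS_qExpansion_E4f, ← map_pow, pow_one, pow_zero, mul_one, gK_mul_gD]

theorem hom2_gen (x : Dv N) : Hom2 N 0 1 (gK N x) := by
  classical
  obtain ⟨k, G, hk, hG⟩ := exists_prod_Df N (Finset.univ.erase x)
  have hM : 1 ≤ Mdiv N := Fintype.card_pos_iff.mpr ⟨x⟩
  refine ⟨((3 : ℕ) : ℤ) * 4 + k, ((E4f N x).pow 3).mul G, ?_, ?_⟩
  · rw [hk, Finset.card_erase_of_mem (Finset.mem_univ x), Finset.card_univ, ← Mdiv,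
      Nat.cast_sub hM]
    push_cast
    ring
  · rw [ModularForm.qExpansion_mul one_pos (one_mem_strictPeriods_G0 N), map_mul,
      ModularForm.qExpansion_pow one_pos (one_mem_strictPeriods_G0 N), map_pow,
      ofPS_qExpansion_E4f, hG, ← map_pow, ← map_mul, pow_zero, mul_one, pow_one, UK,
      ← Finset.mul_prod_erase Finset.univ (gD N) (Finset.mem_univ x), ← mul_assoc, gK_mul_gD]

variable (N) in
/-- The set of formal generators `j(q^d)`, `d ∣ N`. -/
def gensSet : Set (LaurentSeries (AlgebraicClosure ℚ)) := Set.range (gK N)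

theorem exists_hom2_of_mem_adjoin {r : LaurentSeries (AlgebraicClosure ℚ)}
    (hr : r ∈ Algebra.adjoin (AlgebraicClosure ℚ) (gensSet N)) : ∃ t, Hom2 N 0 t r := by
  induction hr using Algebra.adjoin_induction with
  | mem x hx =>
    obtain ⟨d, rfl⟩ := hx
    exact ⟨1, hom2_gen d⟩
  | algebraMap c =>
    refine ⟨0, ?_⟩
    have h1 : algebraMap (AlgebraicClosure ℚ) (LaurentSeries (AlgebraicClosure ℚ)) c
        = c • (1 : LaurentSeries (AlgebraicClosure ℚ)) := by
      rw [algebraMap_laurentSeries_eq_single, ← HahnSeries.C_mul_eq_smul, mul_one,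
        HahnSeries.C_apply]
    rw [h1]
    exact hom2_smul c hom2_one
  | add x y _ _ hx hy =>
    obtain ⟨t, ht⟩ := hx
    obtain ⟨t', ht'⟩ := hy
    exact ⟨max t t', hom2_add (hom2_mono le_rfl (le_max_left _ _) ht)
      (hom2_mono le_rfl (le_max_right _ _) ht')⟩
  | mul x y _ _ hx hy =>
    obtain ⟨t, ht⟩ := hx
    obtain ⟨t', ht'⟩ := hy
    exact ⟨t + t', hom2_mul ht ht'⟩

theorem qExpansion_eq_zero_of_sturm {k : ℤ} (G : ModularForm (G0 N) k) (B : ℕ)
    (hB : (k * (Gamma0 N).index).toNat / 12 ≤ B)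
    (h : ∀ n ≤ B, (qExpansion 1 G).coeff n = 0) : qExpansion 1 G = 0 := by
  have hG : G = 0 := ModularForm.sturm_bound_Gamma0 N G (fun n hn => h n (hn.trans hB))
  rw [hG, FunLike.coe_zero, qExpansion_zero]

/-- The key relation: for `r, s` polynomial expressions in the `j(q^d)`, there is a nontrivial
`ℚ̄`-linear relation among the `j^a r^b s^(n₀-b)`, `b ≤ n₀ = [SL₂(ℤ) : Γ₀(N)]`. -/
theorem exists_relation {r s : LaurentSeries (AlgebraicClosure ℚ)}
    (hr : r ∈ Algebra.adjoin (AlgebraicClosure ℚ) (gensSet N))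
    (hs : s ∈ Algebra.adjoin (AlgebraicClosure ℚ) (gensSet N)) :
    ∃ (A : ℕ) (c : Fin (A + 1) × Fin ((Gamma0 N).index + 1) → AlgebraicClosure ℚ), c ≠ 0 ∧
      ∑ p, c p • (gK N (dvOne N) ^ (p.1 : ℕ) * r ^ (p.2 : ℕ)
        * s ^ ((Gamma0 N).index - (p.2 : ℕ))) = 0 := by
  classical
  obtain ⟨t₁, h₁⟩ := exists_hom2_of_mem_adjoin hr
  obtain ⟨t₂, h₂⟩ := exists_hom2_of_mem_adjoin hs
  set t := max t₁ t₂ with ht
  have hr' : Hom2 N 0 t r := hom2_mono le_rfl (le_max_left _ _) h₁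
  have hs' : Hom2 N 0 t s := hom2_mono le_rfl (le_max_right _ _) h₂
  set n₀ := (Gamma0 N).index with hn₀
  have hn₀pos : 0 < n₀ := Nat.pos_of_ne_zero Subgroup.FiniteIndex.index_ne_zero
  set M := Mdiv N with hM
  set A := M * t * n₀ ^ 2 with hA
  set T := n₀ * t with hT
  set B := (A + M * T) * n₀ with hB
  refine ⟨A, ?_⟩
  set mono : Fin (A + 1) × Fin (n₀ + 1) → LaurentSeries (AlgebraicClosure ℚ) :=
    fun p => gK N (dvOne N) ^ (p.1 : ℕ) * r ^ (p.2 : ℕ) * s ^ (n₀ - (p.2 : ℕ)) with hmono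
  have hmonoH : ∀ p, Hom2 N A T (mono p) := by
    intro p
    have ha : (p.1 : ℕ) ≤ A := Nat.lt_succ_iff.mp p.1.2
    have hb : (p.2 : ℕ) ≤ n₀ := Nat.lt_succ_iff.mp p.2.2
    have e1 := hom2_pow (hom2_gen_j (N := N)) (p.1 : ℕ)
    have e2 := hom2_pow hr' (p.2 : ℕ)
    have e3 := hom2_pow hs' (n₀ - (p.2 : ℕ))
    have e := hom2_mul (hom2_mul e1 e2) e3
    refine hom2_mono ?_ ?_ e
    · simpa using ha
    · have : (p.2 : ℕ) * t + (n₀ - (p.2 : ℕ)) * t = n₀ * t := by
        rw [← add_mul, Nat.add_sub_cancel' hb]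
      simp only [mul_zero, zero_add]
      exact this.le
  set W : LaurentSeries (AlgebraicClosure ℚ) := gD N (dvOne N) ^ A * UK N ^ T with hW
  have hW0 : W ≠ 0 := mul_ne_zero (pow_ne_zero _ (gD_ne_zero N _)) (pow_ne_zero _ (UK_ne_zero N))
  let Φ : (Fin (A + 1) × Fin (n₀ + 1) → AlgebraicClosure ℚ) →ₗ[AlgebraicClosure ℚ]
      (Fin (B + 1) → AlgebraicClosure ℚ) :=
    { toFun := fun c n => ∑ p, c p * (mono p * W).coeff ((n : ℕ) : ℤ)
      map_add' := by
        intro c c'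
        ext n
        simp [add_mul, Finset.sum_add_distrib]
      map_smul' := by
        intro a c
        ext n
        simp [Finset.mul_sum, mul_assoc] }
  have hker : LinearMap.ker Φ ≠ ⊥ := by
    apply LinearMap.ker_ne_bot_of_finrank_lt
    rw [Module.finrank_fintype_fun_eq_card, Module.finrank_fintype_fun_eq_card, Fintype.card_fin,
      Fintype.card_prod, Fintype.card_fin, Fintype.card_fin]
    have : B = A * n₀ + A := by
      rw [hB, hT, hA]
      ring
    rw [this]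
    nlinarith
  obtain ⟨c, hcker, hc0⟩ := (Submodule.ne_bot_iff _).mp hker
  refine ⟨c, hc0, ?_⟩
  have hS : Hom2 N A T (∑ p, c p • mono p) :=
    Finset.sum_induction _ (Hom2 N A T) (fun _ _ => hom2_add) (hom2_zero A T)
      (fun p _ => hom2_smul (c p) (hmonoH p))
  obtain ⟨k, G, hk, hG⟩ := hS
  have hcoef : ∀ n : ℕ, ((∑ p, c p • mono p) * W).coeff (n : ℤ)
      = ∑ p, c p * (mono p * W).coeff (n : ℤ) := by
    intro n
    rw [Finset.sum_mul, HahnSeries.coeff_sum]
    refine Finset.sum_congr rfl fun p _ => ?_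
    rw [← HahnSeries.C_mul_eq_smul, mul_assoc, HahnSeries.C_mul_eq_smul, HahnSeries.coeff_smul,
      smul_eq_mul]
  have hzero : ∀ n ≤ B, (qExpansion 1 G).coeff n = 0 := by
    intro n hn
    have h1 : (HahnSeries.ofPowerSeries ℤ ℂ (qExpansion 1 G)).coeff (n : ℤ)
        = (qExpansion 1 G).coeff n := HahnSeries.ofPowerSeries_apply_coeff _ _
    rw [← h1, hG, mul_assoc, ← hW, cIota, coeffMap_coeff, hcoef]
    have h2 : Φ c ⟨n, Nat.lt_succ_iff.mpr hn⟩ = 0 := by
      rw [LinearMap.mem_ker.mp hcker]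
      rfl
    have h3 : Φ c ⟨n, Nat.lt_succ_iff.mpr hn⟩ = ∑ p, c p * (mono p * W).coeff (n : ℤ) := rfl
    rw [← h3, h2, map_zero]
  have hbound : (k * (Gamma0 N).index).toNat / 12 ≤ B := by
    have : k * ((Gamma0 N).index : ℤ) = ((12 * B : ℕ) : ℤ) := by
      rw [hk, hB, ← hn₀]
      push_cast
      ring
    rw [this, Int.toNat_natCast, Nat.mul_div_cancel_left _ (by norm_num : 0 < 12)]
  have hq := qExpansion_eq_zero_of_sturm G B hbound hzero
  rw [hq, map_zero, mul_assoc, ← hW] at hG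
  have h0 : (∑ p, c p • mono p) * W = 0 := cIota_injective (by rw [← hG, map_zero])
  exact (mul_eq_zero.mp h0).resolve_right hW0

end

end Fermat.Agent.S24.D9744
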