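import Mathlib

set_option autoImplicit false

/-!
# A field extension in characteristic zero all of whose elements have degree `≤ n` is finite
of degree `≤ n`.
-/

namespace Fermat.Agent.S24.D9744

open IntermediateField

theorem finite_and_finrank_le_of_forall_exists_poly {k E : Type*} [Field k] [Field E]
    [Algebra k E] [CharZero k] (n : ℕ)
    (h : ∀ α : E, ∃ p : Polynomial k, p ≠ 0 ∧ p.natDegree ≤ n ∧ Polynomial.aeval α p = 0) :
    FiniteDimensional k E ∧ Module.finrank k E ≤ n := by
  have halg : Algebra.IsAlgebraic k E :=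
    ⟨fun α => let ⟨p, hp0, _, hp⟩ := h α; ⟨p, hp0, hp⟩⟩
  have hint : ∀ α : E, IsIntegral k α := fun α => (halg.isAlgebraic α).isIntegral
  have hsep : Algebra.IsSeparable k E := inferInstance
  have hdeg : ∀ α : E, (minpoly k α).natDegree ≤ n := by
    intro α
    obtain ⟨p, hp0, hpn, hp⟩ := h α
    exact (Polynomial.natDegree_le_natDegree (minpoly.degree_le_of_ne_zero k α hp0 hp)).trans hpn
  -- choose an element of maximal degree
  obtain ⟨α₀, hmax⟩ : ∃ α₀ : E, ∀ β : E, (minpoly k β).natDegree ≤ (minpoly k α₀).natDegree := by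
    set S : Set ℕ := Set.range fun α : E => (minpoly k α).natDegree with hS
    have hne : S.Nonempty := ⟨_, ⟨0, rfl⟩⟩
    have hbdd : BddAbove S := ⟨n, by rintro _ ⟨α, rfl⟩; exact hdeg α⟩
    obtain ⟨α₀, hα₀⟩ := Nat.sSup_mem hne hbdd
    have hα₀' : (minpoly k α₀).natDegree = sSup S := hα₀
    exact ⟨α₀, fun β => by rw [hα₀']; exact le_csSup hbdd ⟨β, rfl⟩⟩
  have htop : k⟮α₀⟯ = ⊤ := by
    rw [eq_top_iff]
    intro β _
    obtain ⟨γ, hγ⟩ := Field.primitive_element_inf_aux k α₀ β
    have h1 : k⟮α₀⟯ ≤ k⟮γ⟯ := by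
      rw [← hγ]
      exact IntermediateField.adjoin.mono k _ _ (by simp)
    have : FiniteDimensional k k⟮γ⟯ := adjoin.finiteDimensional (hint γ)
    have h2 : Module.finrank k k⟮γ⟯ ≤ Module.finrank k k⟮α₀⟯ := by
      rw [IntermediateField.adjoin.finrank (hint γ), IntermediateField.adjoin.finrank (hint α₀)]
      exact hmax γ
    have h3 : k⟮α₀⟯ = k⟮γ⟯ := IntermediateField.eq_of_le_of_finrank_le h1 h2
    rw [h3, ← hγ]
    exact IntermediateField.subset_adjoin k _ (by simp)
  have : FiniteDimensional k k⟮α₀⟯ := adjoin.finiteDimensional (hint α₀)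
  have hfd : FiniteDimensional k E := by
    have e : (⊤ : IntermediateField k E) ≃ₐ[k] E := IntermediateField.topEquiv
    have : FiniteDimensional k (⊤ : IntermediateField k E) := htop ▸ inferInstance
    exact e.toLinearEquiv.finiteDimensional
  refine ⟨hfd, ?_⟩
  have : Module.finrank k E = Module.finrank k k⟮α₀⟯ := by
    rw [htop, IntermediateField.finrank_top']
  rw [this, IntermediateField.adjoin.finrank (hint α₀)]
  exact hdeg α₀

end Fermat.Agent.S24.D9744
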