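import Mathlib
import Fermat.Prelude.Def_ModularCurve_ArithmeticGalois
import Fermat.Prelude.Def_ModularCurve_JqCoeff
import Fermat.Prelude.Thm_ModularCurve_coeff_jqModC_pow_self
import Fermat.Prelude.Thm_ModularCurve_coeff_jqModC_pow_of_lt
import Fermat.Agent.S24.D9744.AlgDegree
import Fermat.Agent.S24.D9744.BoundedDegree

set_option autoImplicit false
set_option linter.unusedSectionVars false

/-!
# `ℚ̄(X₀(N))` is finite over `ℚ̄(j)` of degree `≤ [SL₂(ℤ) : Γ₀(N)]`
-/

namespace Fermat.Agent.S24.D9744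

open ModularCurve HahnSeries IntermediateField CongruenceSubgroup
open scoped MatrixGroups

noncomputable section

/-- The formal `j` is transcendental over the coefficient field. -/
theorem aeval_jL_eq_zero {K : Type*} [Field K] {p : Polynomial K}
    (hp : Polynomial.aeval (jL K) p = 0) : p = 0 := by
  by_contra hp0
  set n := p.natDegree with hn
  have hcoeff : (Polynomial.aeval (jL K) p).coeff (-(n : ℤ)) = p.coeff n := by
    rw [Polynomial.aeval_def, Polynomial.eval₂_eq_sum_range, HahnSeries.coeff_sum,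
      Finset.sum_eq_single n]
    · rw [algebraMap_laurentSeries_eq_single, HahnSeries.coeff_single_zero_mul,
        show jL K = jqModC K from rfl, coeff_jqModC_pow_self, mul_one]
    · intro i hi hin
      have hilt : i < n := lt_of_le_of_ne (Nat.lt_succ_iff.mp (Finset.mem_range.mp hi)) hin
      rw [algebraMap_laurentSeries_eq_single, HahnSeries.coeff_single_zero_mul,
        show jL K = jqModC K from rfl, coeff_jqModC_pow_of_lt, mul_zero]
      omega
    · intro hn'
      exact absurd (Finset.self_mem_range_succ n) hn'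
  rw [hp] at hcoeff
  simp only [HahnSeries.coeff_zero] at hcoeff
  exact hp0 (Polynomial.leadingCoeff_eq_zero.mp hcoeff.symm)

variable (N : ℕ) [NeZero N]

/-- Any element of the function field whose underlying series is the formal `j` is
transcendental over `ℚ̄`. -/
theorem transcendental_of_coe_eq_jq (j : ↥(modularFunctionFieldBar N))
    (hj : (j : LaurentSeries (AlgebraicClosure ℚ)) = coeffEmb (AlgebraicClosure ℚ) jq) :
    Transcendental (AlgebraicClosure ℚ) j := by
  rw [transcendental_iff]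
  intro p hp
  apply aeval_jL_eq_zero (K := AlgebraicClosure ℚ)
  have h := congrArg ((modularFunctionFieldBar N).val) hp
  rw [← Polynomial.aeval_algHom_apply, map_zero] at h
  rw [← coeffEmb_jq, ← hj]
  exact h

/-- The `ℚ̄`-subalgebra generated by the `j(q^d)`, `d ∣ N`. -/
def A0 : Subalgebra (AlgebraicClosure ℚ) (LaurentSeries (AlgebraicClosure ℚ)) :=
  Algebra.adjoin (AlgebraicClosure ℚ) (gensSet N)

/-- Quotients of elements of `A0`. -/
def IsFrac (x : LaurentSeries (AlgebraicClosure ℚ)) : Prop :=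
  ∃ r ∈ A0 N, ∃ s ∈ A0 N, s ≠ 0 ∧ x = r / s

variable {N}

theorem isFrac_of_mem {r : LaurentSeries (AlgebraicClosure ℚ)} (hr : r ∈ A0 N) : IsFrac N r :=
  ⟨r, hr, 1, one_mem _, one_ne_zero, by rw [div_one]⟩

theorem isFrac_add {x y : LaurentSeries (AlgebraicClosure ℚ)} (hx : IsFrac N x)
    (hy : IsFrac N y) : IsFrac N (x + y) := by
  obtain ⟨r, hr, s, hs, hs0, rfl⟩ := hx
  obtain ⟨r', hr', s', hs', hs0', rfl⟩ := hy
  exact ⟨r * s' + s * r', add_mem (mul_mem hr hs') (mul_mem hs hr'), s * s', mul_mem hs hs',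
    mul_ne_zero hs0 hs0', div_add_div _ _ hs0 hs0'⟩

theorem isFrac_mul {x y : LaurentSeries (AlgebraicClosure ℚ)} (hx : IsFrac N x)
    (hy : IsFrac N y) : IsFrac N (x * y) := by
  obtain ⟨r, hr, s, hs, hs0, rfl⟩ := hx
  obtain ⟨r', hr', s', hs', hs0', rfl⟩ := hy
  exact ⟨r * r', mul_mem hr hr', s * s', mul_mem hs hs', mul_ne_zero hs0 hs0',
    div_mul_div_comm _ _ _ _⟩

theorem isFrac_neg {x : LaurentSeries (AlgebraicClosure ℚ)} (hx : IsFrac N x) :
    IsFrac N (-x) := by
  obtain ⟨r, hr, s, hs, hs0, rfl⟩ := hx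
  exact ⟨-r, neg_mem hr, s, hs, hs0, (neg_div _ _).symm⟩

theorem isFrac_inv {x : LaurentSeries (AlgebraicClosure ℚ)} (hx : IsFrac N x) :
    IsFrac N x⁻¹ := by
  obtain ⟨r, hr, s, hs, hs0, rfl⟩ := hx
  by_cases hr0 : r = 0
  · subst hr0
    rw [zero_div, inv_zero]
    exact isFrac_of_mem (zero_mem _)
  · exact ⟨s, hs, r, hr, hr0, inv_div _ _⟩

theorem isFrac_coeffEmb {y : LaurentSeries ℚ} (hy : y ∈ modularFunctionFieldFull N) :
    IsFrac N (coeffEmb (AlgebraicClosure ℚ) y) := by
  unfold modularFunctionFieldFull at hy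
  induction hy using IntermediateField.adjoin_induction with
  | mem y hy =>
    obtain ⟨d, hne, hdvd, rfl⟩ := hy
    have := hne
    apply isFrac_of_mem
    apply Algebra.subset_adjoin
    exact ⟨⟨d, Nat.mem_divisors.mpr ⟨hdvd, NeZero.ne N⟩⟩,
      (coeffEmb_qExpand_jq (AlgebraicClosure ℚ) d).symm⟩
  | algebraMap c =>
    rw [algebraMap_apply_eq_single, coeffEmb, coeffMap_single,
      ← algebraMap_laurentSeries_eq_single]
    exact isFrac_of_mem (Subalgebra.algebraMap_mem _ _)
  | add x y _ _ hx hy =>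
    rw [map_add]
    exact isFrac_add hx hy
  | inv x _ hx =>
    rw [map_inv₀]
    exact isFrac_inv hx
  | mul x y _ _ hx hy =>
    rw [map_mul]
    exact isFrac_mul hx hy

theorem isFrac_of_mem_field {x : LaurentSeries (AlgebraicClosure ℚ)}
    (hx : x ∈ modularFunctionFieldBar N) : IsFrac N x := by
  rw [mem_laurentBaseChange_iff] at hx
  induction hx using Subfield.closure_induction with
  | mem y hy =>
    rcases hy with ⟨a, rfl⟩ | ⟨z, hz, rfl⟩
    · exact isFrac_of_mem (Subalgebra.algebraMap_mem _ _)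
    · exact isFrac_coeffEmb hz
  | one => exact isFrac_of_mem (one_mem _)
  | add x y _ _ hx hy => exact isFrac_add hx hy
  | neg x _ hx => exact isFrac_neg hx
  | inv x _ hx => exact isFrac_inv hx
  | mul x y _ _ hx hy => exact isFrac_mul hx hy

theorem gK_dvOne : gK N (dvOne N) = jL (AlgebraicClosure ℚ) :=
  qExpand_one_apply _

theorem div_pow_mul_pow_aux {L : Type*} [Field L] (r s : L) (hs : s ≠ 0) (b n : ℕ) (hb : b ≤ n) :
    (r / s) ^ b * s ^ n = r ^ b * s ^ (n - b) := by
  obtain ⟨m, rfl⟩ := Nat.exists_eq_add_of_le hb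
  rw [Nat.add_sub_cancel_left, _root_.pow_add, div_pow]
  field_simp

/-- Every element of the function field satisfies a nonzero polynomial of degree
`≤ [SL₂(ℤ) : Γ₀(N)]` over `ℚ̄(j)`. -/
theorem exists_poly_over_j (j : ↥(modularFunctionFieldBar N))
    (hj : (j : LaurentSeries (AlgebraicClosure ℚ)) = coeffEmb (AlgebraicClosure ℚ) jq)
    (α : ↥(modularFunctionFieldBar N)) :
    ∃ p : Polynomial ↥((AlgebraicClosure ℚ)⟮j⟯), p ≠ 0 ∧ p.natDegree ≤ (Gamma0 N).index ∧
      Polynomial.aeval α p = 0 := by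
  classical
  obtain ⟨r, hr, s, hs, hs0, hα⟩ := isFrac_of_mem_field α.2
  have hrel0 := exists_relation hr hs
  generalize (Gamma0 N).index = n₀ at hrel0 ⊢
  obtain ⟨A, c, hc0, hrel⟩ := hrel0
  have hjK : gK N (dvOne N) = (j : LaurentSeries (AlgebraicClosure ℚ)) := by
    rw [hj, coeffEmb_jq, gK_dvOne]
  rw [hjK] at hrel
  -- the relation with `α` in place of `r / s`
  have hrel2 : ∑ p : Fin (A + 1) × Fin (n₀ + 1), c p •
      ((j : LaurentSeries (AlgebraicClosure ℚ)) ^ (p.1 : ℕ)
        * (α : LaurentSeries (AlgebraicClosure ℚ)) ^ (p.2 : ℕ)) = 0 := by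
    have h1 : (∑ p : Fin (A + 1) × Fin (n₀ + 1), c p •
        ((j : LaurentSeries (AlgebraicClosure ℚ)) ^ (p.1 : ℕ)
          * (α : LaurentSeries (AlgebraicClosure ℚ)) ^ (p.2 : ℕ))) * s ^ n₀ = 0 := by
      rw [Finset.sum_mul, ← hrel]
      refine Finset.sum_congr rfl fun p _ => ?_
      have hb : (p.2 : ℕ) ≤ n₀ := Nat.lt_succ_iff.mp p.2.2
      have h2 : (α : LaurentSeries (AlgebraicClosure ℚ)) ^ (p.2 : ℕ) * s ^ n₀
          = r ^ (p.2 : ℕ) * s ^ (n₀ - (p.2 : ℕ)) := by
        rw [hα]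
        exact div_pow_mul_pow_aux r s hs0 _ _ hb
      rw [← HahnSeries.C_mul_eq_smul, ← HahnSeries.C_mul_eq_smul, mul_assoc, mul_assoc, h2,
        mul_assoc]
    exact (mul_eq_zero.mp h1).resolve_right (pow_ne_zero _ hs0)
  -- the relation inside the function field
  have hrelF : ∑ b : Fin (n₀ + 1), (∑ a : Fin (A + 1),
      algebraMap (AlgebraicClosure ℚ) ↥(modularFunctionFieldBar N) (c (a, b)) * j ^ (a : ℕ))
        * α ^ (b : ℕ) = 0 := by
    apply Subtype.ext
    rw [ZeroMemClass.coe_zero, ← hrel2, Fintype.sum_prod_type, Finset.sum_comm]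
    push_cast
    refine Finset.sum_congr rfl fun b _ => ?_
    rw [Finset.sum_mul]
    refine Finset.sum_congr rfl fun a _ => ?_
    rw [← HahnSeries.C_mul_eq_smul, mul_assoc]
    congr 1
    rw [algebraMap_laurentSeries_eq_single, HahnSeries.C_apply]
  have htr := transcendental_of_coe_eq_jq N j hj
  set jg : ↥((AlgebraicClosure ℚ)⟮j⟯) := AdjoinSimple.gen (AlgebraicClosure ℚ) j with hjg
  set coef : Fin (n₀ + 1) → ↥((AlgebraicClosure ℚ)⟮j⟯) := fun b =>
    ∑ a : Fin (A + 1), algebraMap (AlgebraicClosure ℚ) ↥((AlgebraicClosure ℚ)⟮j⟯) (c (a, b))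
      * jg ^ (a : ℕ) with hcoef
  have hcoefF : ∀ b, algebraMap ↥((AlgebraicClosure ℚ)⟮j⟯) ↥(modularFunctionFieldBar N) (coef b)
      = ∑ a : Fin (A + 1),
        algebraMap (AlgebraicClosure ℚ) ↥(modularFunctionFieldBar N) (c (a, b)) * j ^ (a : ℕ) := by
    intro b
    rw [hcoef]
    simp only [map_sum, map_mul, map_pow]
    refine Finset.sum_congr rfl fun a _ => ?_
    rw [hjg, AdjoinSimple.algebraMap_gen, ← IsScalarTower.algebraMap_apply]
  refine ⟨∑ b : Fin (n₀ + 1), Polynomial.monomial (b : ℕ) (coef b), ?_, ?_, ?_⟩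
  · -- nonzero
    obtain ⟨⟨a₀, b₀⟩, hp₀⟩ := Function.ne_iff.mp hc0
    intro hP
    have hcoeff := congrArg (fun q => Polynomial.coeff q (b₀ : ℕ)) hP
    simp only [Polynomial.finsetSum_coeff, Polynomial.coeff_monomial, Polynomial.coeff_zero,
      Fin.val_inj, Finset.sum_ite_eq', Finset.mem_univ, if_true] at hcoeff
    have h3 := congrArg (algebraMap ↥((AlgebraicClosure ℚ)⟮j⟯) ↥(modularFunctionFieldBar N)) hcoeff
    rw [hcoefF, map_zero] at h3
    have h4 : Polynomial.aeval j (∑ a : Fin (A + 1),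
        Polynomial.monomial (a : ℕ) (c (a, b₀))) = 0 := by
      rw [map_sum, ← h3]
      refine Finset.sum_congr rfl fun a _ => ?_
      rw [Polynomial.aeval_monomial]
    have h5 := (transcendental_iff.mp htr) _ h4
    have h6 := congrArg (fun q => Polynomial.coeff q (a₀ : ℕ)) h5
    simp only [Polynomial.finsetSum_coeff, Polynomial.coeff_monomial, Polynomial.coeff_zero,
      Fin.val_inj, Finset.sum_ite_eq', Finset.mem_univ, if_true] at h6
    exact hp₀ h6
  · exact Polynomial.natDegree_sum_le_of_forall_le _ _ fun b _ =>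
      (Polynomial.natDegree_monomial_le _).trans (Nat.lt_succ_iff.mp b.2)
  · rw [map_sum, ← hrelF]
    refine Finset.sum_congr rfl fun b _ => ?_
    rw [Polynomial.aeval_monomial, hcoefF]

/-- `ℚ̄(X₀(N))` is finite over `ℚ̄(j)`, of degree at most the index of `Γ₀(N)`. -/
theorem finite_and_finrank_le_index (j : ↥(modularFunctionFieldBar N))
    (hj : (j : LaurentSeries (AlgebraicClosure ℚ)) = coeffEmb (AlgebraicClosure ℚ) jq) :
    FiniteDimensional ↥((AlgebraicClosure ℚ)⟮j⟯) ↥(modularFunctionFieldBar N) ∧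
      Module.finrank ↥((AlgebraicClosure ℚ)⟮j⟯) ↥(modularFunctionFieldBar N)
        ≤ (Gamma0 N).index :=
  finite_and_finrank_le_of_forall_exists_poly _ (exists_poly_over_j j hj)

end

end Fermat.Agent.S24.D9744
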